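import Mathlib
import Fermat.Agent.LT.H129.Cartan
import Fermat.Agent.LT.H129.HeckeExists

/-!
# Row LT, tower T7, node `SimpleC`, leaf `StepSphC` of helper963: THE LOCAL CORE (helper142)

OFF-MAIN.  Mathlib + the local toolkit `LT/H129` (helper129, byte-identical copies).

`sph_vanish142`: a function `Φ` on `GL₂(K_v)` which is bi-invariant under `GL₂(𝒪_v)`, satisfies
the Hecke relation `∑_c Φ(x [[π, c], [0, 1]]) + Φ(x diag(1, π)) = A Φ(x)` and
`Φ(x diag(π, π)) = b Φ(x)`, and vanishes at `1`, vanishes identically.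

Proof: `E_d = Φ(diag(π^d, 1))`; `(q + 1) E_1 = A E_0`, `q E_{d+1} + b E_{d-1} = A E_d`, so
`E_d = 0` for all `d`; Cartan decomposition; the scalars act through `b` (if `b = 0` then
`Φ = 0` at once).
-/

set_option autoImplicit false

open IsDedekindDomain NumberField Matrix
open IsDedekindDomain.HeightOneSpectrum

noncomputable section

namespace Fermat.Agent.LT.T7.H142

open Fermat.Agent.LT.H129

variable {K : Type} [Field K] [NumberField K] (v : HeightOneSpectrum (𝓞 K))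

/-- The diagonal matrix `diag(x, y)`. -/
def dg142 (x y : v.adicCompletion K) (hx : x ≠ 0) (hy : y ≠ 0) :
    GL (Fin 2) (v.adicCompletion K) :=
  mkGL129 x 0 0 y (by simpa using mul_ne_zero hx hy)

/-- The upper triangular Hecke element `[[π, c], [0, 1]]`. -/
def up142 (π c : v.adicCompletion K) (hπ : π ≠ 0) : GL (Fin 2) (v.adicCompletion K) :=
  mkGL129 π c 0 1 (by simpa using hπ)

variable {v}

theorem coe_dg142 (x y : v.adicCompletion K) (hx : x ≠ 0) (hy : y ≠ 0) :
    ((dg142 v x y hx hy : GL (Fin 2) (v.adicCompletion K)) :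
      Matrix (Fin 2) (Fin 2) (v.adicCompletion K)) = !![x, 0; 0, y] := rfl

theorem coe_up142 (π c : v.adicCompletion K) (hπ : π ≠ 0) :
    ((up142 v π c hπ : GL (Fin 2) (v.adicCompletion K)) :
      Matrix (Fin 2) (Fin 2) (v.adicCompletion K)) = !![π, c; 0, 1] := rfl

theorem dg142_mul (x y x' y' : v.adicCompletion K) (hx : x ≠ 0) (hy : y ≠ 0) (hx' : x' ≠ 0)
    (hy' : y' ≠ 0) :
    dg142 v x y hx hy * dg142 v x' y' hx' hy'
      = dg142 v (x * x') (y * y') (mul_ne_zero hx hx') (mul_ne_zero hy hy') := by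
  apply ext_mat129
  rw [Matrix.GeneralLinearGroup.coe_mul, coe_dg142, coe_dg142, coe_dg142]
  ext i j
  fin_cases i <;> fin_cases j <;> simp [Matrix.mul_apply, Fin.sum_univ_two]

theorem dg142_congr {x y x' y' : v.adicCompletion K} (hx : x ≠ 0) (hy : y ≠ 0) (hx' : x' ≠ 0)
    (hy' : y' ≠ 0) (ex : x = x') (ey : y = y') : dg142 v x y hx hy = dg142 v x' y' hx' hy' := by
  subst ex; subst ey; rfl

theorem dg142_one : dg142 v 1 1 one_ne_zero one_ne_zero = 1 := by
  apply ext_mat129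
  rw [coe_dg142]
  ext i j
  fin_cases i <;> fin_cases j <;> simp

/-- `diag(x, y) ∈ GL₂(𝒪_v)` for units `x, y`. -/
theorem isMaxCpt_dg142 {x y : v.adicCompletion K} (hx : x ≠ 0) (hy : y ≠ 0)
    (hvx : Valued.v x = 1) (hvy : Valued.v y = 1) :
    IsMaxCpt129 (v.adicCompletionIntegers K) (dg142 v x y hx hy) := by
  have h0 : (0 : v.adicCompletion K) ∈ v.adicCompletionIntegers K :=
    (v.adicCompletionIntegers K).zero_mem
  have hinv : (dg142 v x y hx hy)⁻¹ = dg142 v x⁻¹ y⁻¹ (inv_ne_zero hx) (inv_ne_zero hy) := by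
    rw [inv_eq_iff_mul_eq_one, dg142_mul, ← dg142_one]
    exact dg142_congr _ _ _ _ (mul_inv_cancel₀ hx) (mul_inv_cancel₀ hy)
  refine ⟨isInt129_mkGL _ ?_ h0 h0 ?_, ?_⟩
  · rw [mem_adicCompletionIntegers, hvx]
  · rw [mem_adicCompletionIntegers, hvy]
  · rw [hinv]
    refine isInt129_mkGL _ ?_ h0 h0 ?_
    · rw [mem_adicCompletionIntegers, map_inv₀, hvx, inv_one]
    · rw [mem_adicCompletionIntegers, map_inv₀, hvy, inv_one]

/-- `diag(x, y) = w diag(y, x) w`. -/
theorem dg142_swap (x y : v.adicCompletion K) (hx : x ≠ 0) (hy : y ≠ 0) :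
    dg142 v x y hx hy = weyl129 * dg142 v y x hy hx * weyl129 := by
  apply ext_mat129
  simp only [Matrix.GeneralLinearGroup.coe_mul, coe_dg142, weyl129, coe_mkGL129]
  ext i j
  fin_cases i <;> fin_cases j <;> simp [Matrix.mul_apply, Fin.sum_univ_two]

/-- `diag(p, 1) [[π, c], [0, 1]] = n(p c) diag(p π, 1)`. -/
theorem dg142_mul_up (p π c : v.adicCompletion K) (hp : p ≠ 0) (hπ : π ≠ 0) :
    dg142 v p 1 hp one_ne_zero * up142 v π c hπ
      = upperU129 (p * c) * dg142 v (p * π) 1 (mul_ne_zero hp hπ) one_ne_zero := by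
  apply ext_mat129
  rw [Matrix.GeneralLinearGroup.coe_mul, Matrix.GeneralLinearGroup.coe_mul, coe_dg142,
    coe_dg142, coe_up142]
  simp only [upperU129, coe_mkGL129]
  ext i j
  fin_cases i <;> fin_cases j <;> simp [Matrix.mul_apply, Fin.sum_univ_two]

/-- A non-zero element of valuation `≤ 1` has valuation `exp (-d)`, `d : ℕ`. -/
theorem exists_nat_val142 {t : v.adicCompletion K} (ht : t ≠ 0) (hle : Valued.v t ≤ 1) :
    ∃ d : ℕ, Valued.v t = WithZero.exp (-(d : ℤ)) := by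
  have hne : Valued.v t ≠ 0 := (Valuation.ne_zero_iff _).mpr ht
  have hlog : WithZero.log (Valued.v t) ≤ 0 := by
    have h1 : Valued.v t ≤ WithZero.exp (0 : ℤ) := by simpa using hle
    rwa [← WithZero.exp_log hne, WithZero.exp_le_exp] at h1
  refine ⟨(-(WithZero.log (Valued.v t))).toNat, ?_⟩
  rw [Int.toNat_of_nonneg (by omega), neg_neg]
  exact (WithZero.exp_log hne).symm

/-- A non-zero element has valuation `exp k`, `k : ℤ`. -/
theorem exists_int_val142 {t : v.adicCompletion K} (ht : t ≠ 0) :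
    ∃ k : ℤ, Valued.v t = WithZero.exp k :=
  ⟨WithZero.log (Valued.v t), (WithZero.exp_log ((Valuation.ne_zero_iff _).mpr ht)).symm⟩

theorem val_pow142 {π : v.adicCompletion K} (hπ : Valued.v π = WithZero.exp (-1 : ℤ)) (d : ℕ) :
    Valued.v (π ^ d) = WithZero.exp (-(d : ℤ)) := by
  rw [map_pow, hπ, ← WithZero.exp_nsmul]
  first | rfl | (congr 1; simp)

section Core

variable [Fintype (𝓞 K ⧸ v.asIdeal)]
variable {π : v.adicCompletion K} (hπ : Valued.v π = WithZero.exp (-1 : ℤ))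
variable (Φ : GL (Fin 2) (v.adicCompletion K) → ℂ) (A b : ℂ)

include hπ in
/-- The values on the diagonal elements `diag(π^d, 1)` vanish. -/
theorem sph_diag142
    (hR : ∀ x k, IsMaxCpt129 (v.adicCompletionIntegers K) k → Φ (x * k) = Φ x)
    (hL : ∀ x k, IsMaxCpt129 (v.adicCompletionIntegers K) k → Φ (k * x) = Φ x)
    (hT : ∀ x, (∑ c : 𝓞 K ⧸ v.asIdeal, Φ (x * up142 v π (rep129 v c) (unif_ne_zero129 v hπ)))
      + Φ (x * dg142 v 1 π one_ne_zero (unif_ne_zero129 v hπ)) = A * Φ x)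
    (hS : ∀ x, Φ (x * dg142 v π π (unif_ne_zero129 v hπ) (unif_ne_zero129 v hπ)) = b * Φ x)
    (h0 : Φ 1 = 0) (d : ℕ) :
    Φ (dg142 v (π ^ d) 1 (pow_ne_zero d (unif_ne_zero129 v hπ)) one_ne_zero) = 0 := by
  have hπ0 := unif_ne_zero129 v hπ
  have hπm : π ∈ v.adicCompletionIntegers K := unif_mem129 v hπ
  -- the upper terms of the Hecke relation
  have hup : ∀ (d : ℕ) (c : 𝓞 K ⧸ v.asIdeal),
      Φ (dg142 v (π ^ d) 1 (pow_ne_zero d hπ0) one_ne_zero * up142 v π (rep129 v c) hπ0)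
        = Φ (dg142 v (π ^ (d + 1)) 1 (pow_ne_zero (d + 1) hπ0) one_ne_zero) := by
    intro d c
    rw [dg142_mul_up, hL]
    · exact congrArg Φ (dg142_congr _ _ _ _ (pow_succ π d).symm rfl)
    · apply isMaxCpt129_upperU
      exact (v.adicCompletionIntegers K).mul_mem _ _
        ((v.adicCompletionIntegers K).pow_mem hπm d) (rep129_mem v c)
  have hsum : ∀ d : ℕ,
      (∑ c : 𝓞 K ⧸ v.asIdeal,
        Φ (dg142 v (π ^ d) 1 (pow_ne_zero d hπ0) one_ne_zero * up142 v π (rep129 v c) hπ0))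
        = (Fintype.card (𝓞 K ⧸ v.asIdeal) : ℂ)
          * Φ (dg142 v (π ^ (d + 1)) 1 (pow_ne_zero (d + 1) hπ0) one_ne_zero) := by
    intro d
    rw [Finset.sum_congr rfl (fun c _ => hup d c), Finset.sum_const, Finset.card_univ,
      nsmul_eq_mul]
  have hq : (Fintype.card (𝓞 K ⧸ v.asIdeal) : ℂ) ≠ 0 := by
    have : 0 < Fintype.card (𝓞 K ⧸ v.asIdeal) := Fintype.card_pos_iff.mpr ⟨0⟩
    exact_mod_cast this.ne'
  -- two-step induction
  have key : ∀ d : ℕ,
      Φ (dg142 v (π ^ d) 1 (pow_ne_zero d hπ0) one_ne_zero) = 0 ∧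
      Φ (dg142 v (π ^ (d + 1)) 1 (pow_ne_zero (d + 1) hπ0) one_ne_zero) = 0 := by
    intro d
    induction d with
    | zero =>
      have e0 : dg142 v (π ^ 0) 1 (pow_ne_zero 0 hπ0) one_ne_zero = 1 := by
        rw [← dg142_one]
        exact dg142_congr _ _ _ _ (pow_zero π) rfl
      have hE0 : Φ (dg142 v (π ^ 0) 1 (pow_ne_zero 0 hπ0) one_ne_zero) = 0 := by
        rw [e0, h0]
      refine ⟨hE0, ?_⟩
      have hrel := hT (dg142 v (π ^ 0) 1 (pow_ne_zero 0 hπ0) one_ne_zero)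
      rw [hsum 0, hE0, mul_zero] at hrel
      -- the last term: `diag(1, π) = w diag(π, 1) w`
      have elast : dg142 v (π ^ 0) 1 (pow_ne_zero 0 hπ0) one_ne_zero
          * dg142 v 1 π one_ne_zero hπ0
          = weyl129 * dg142 v (π ^ (0 + 1)) 1 (pow_ne_zero (0 + 1) hπ0) one_ne_zero
            * weyl129 := by
        rw [e0, one_mul, dg142_swap]
        congr 2
        exact dg142_congr _ _ _ _ (by simp) rfl
      rw [elast, hR _ _ (isMaxCpt129_weyl _), hL _ _ (isMaxCpt129_weyl _)] at hrel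
      have h2 : ((Fintype.card (𝓞 K ⧸ v.asIdeal) : ℂ) + 1)
          * Φ (dg142 v (π ^ (0 + 1)) 1 (pow_ne_zero (0 + 1) hπ0) one_ne_zero) = 0 := by
        rw [add_mul, one_mul]
        exact hrel
      rcases mul_eq_zero.mp h2 with h3 | h3
      · exact absurd h3 (Nat.cast_add_one_ne_zero _)
      · exact h3
    | succ d ih =>
      refine ⟨ih.2, ?_⟩
      have hrel := hT (dg142 v (π ^ (d + 1)) 1 (pow_ne_zero (d + 1) hπ0) one_ne_zero)
      rw [hsum (d + 1), ih.2, mul_zero] at hrel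
      -- the last term: `diag(π^(d+1), π) = diag(π^d, 1) diag(π, π)`
      have elast : dg142 v (π ^ (d + 1)) 1 (pow_ne_zero (d + 1) hπ0) one_ne_zero
          * dg142 v 1 π one_ne_zero hπ0
          = dg142 v (π ^ d) 1 (pow_ne_zero d hπ0) one_ne_zero * dg142 v π π hπ0 hπ0 := by
        rw [dg142_mul, dg142_mul]
        exact dg142_congr _ _ _ _ (by rw [mul_one, pow_succ]) rfl
      rw [elast, hS, ih.1, mul_zero, add_zero] at hrel
      exact (mul_eq_zero.mp hrel).resolve_left hq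
  exact (key d).1

include hπ in
/-- **The local core**: a bi-invariant Hecke eigenfunction which vanishes at `1` vanishes. -/
theorem sph_vanish142
    (hR : ∀ x k, IsMaxCpt129 (v.adicCompletionIntegers K) k → Φ (x * k) = Φ x)
    (hL : ∀ x k, IsMaxCpt129 (v.adicCompletionIntegers K) k → Φ (k * x) = Φ x)
    (hT : ∀ x, (∑ c : 𝓞 K ⧸ v.asIdeal, Φ (x * up142 v π (rep129 v c) (unif_ne_zero129 v hπ)))
      + Φ (x * dg142 v 1 π one_ne_zero (unif_ne_zero129 v hπ)) = A * Φ x)
    (hS : ∀ x, Φ (x * dg142 v π π (unif_ne_zero129 v hπ) (unif_ne_zero129 v hπ)) = b * Φ x)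
    (h0 : Φ 1 = 0) (x : GL (Fin 2) (v.adicCompletion K)) : Φ x = 0 := by
  have hπ0 := unif_ne_zero129 v hπ
  by_cases hb : b = 0
  · -- `Φ(x) = Φ(x Z⁻¹ Z) = b Φ(x Z⁻¹) = 0`
    have h := hS (x * (dg142 v π π hπ0 hπ0)⁻¹)
    rw [inv_mul_cancel_right, hb, zero_mul] at h
    exact h
  -- the scalars
  have hscal : ∀ k : ℤ, ∀ c : v.adicCompletion K, ∀ hc : c ≠ 0, Valued.v c = WithZero.exp k →
      ∀ g, Φ g = 0 → Φ (g * dg142 v c c hc hc) = 0 := by
    intro k
    induction k using Int.induction_on with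
    | zero =>
      intro c hc hv g hg
      rw [hR _ _ (isMaxCpt_dg142 hc hc (by simpa using hv) (by simpa using hv))]
      exact hg
    | succ n ih =>
      -- `c π` has valuation `exp n`
      intro c hc hv g hg
      have hcπ : c * π ≠ 0 := mul_ne_zero hc hπ0
      have hv' : Valued.v (c * π) = WithZero.exp (n : ℤ) := by
        rw [map_mul, hv, hπ, ← WithZero.exp_add]
        congr 1
        ring
      have h1 := ih (c * π) hcπ hv' g hg
      have e : g * dg142 v (c * π) (c * π) hcπ hcπ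
          = g * dg142 v c c hc hc * dg142 v π π hπ0 hπ0 := by
        rw [mul_assoc, dg142_mul]
      rw [e, hS] at h1
      exact (mul_eq_zero.mp h1).resolve_left hb
    | pred n ih =>
      -- `c / π` has valuation `exp (-n)`
      intro c hc hv g hg
      have hcπ : c / π ≠ 0 := div_ne_zero hc hπ0
      have hv' : Valued.v (c / π) = WithZero.exp (-(n : ℤ)) := by
        rw [map_div₀, hv, hπ, ← WithZero.exp_sub]
        congr 1
        ring
      have h1 := ih (c / π) hcπ hv' g hg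
      have e : g * dg142 v c c hc hc
          = g * dg142 v (c / π) (c / π) hcπ hcπ * dg142 v π π hπ0 hπ0 := by
        rw [mul_assoc, dg142_mul]
        congr 1
        exact dg142_congr _ _ _ _ (by field_simp) (by field_simp)
      rw [e, hS, h1, mul_zero]
  -- the diagonal elements `diag(t, 1)`, `t` integral
  have hdiag : ∀ t : v.adicCompletion K, ∀ ht : t ≠ 0, Valued.v t ≤ 1 →
      Φ (dg142 v t 1 ht one_ne_zero) = 0 := by
    intro t ht hle
    obtain ⟨d, hd⟩ := exists_nat_val142 ht hle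
    have hpd : π ^ d ≠ 0 := pow_ne_zero d hπ0
    have hu : t / π ^ d ≠ 0 := div_ne_zero ht hpd
    have hvu : Valued.v (t / π ^ d) = 1 := by
      rw [map_div₀, hd, val_pow142 hπ]
      exact div_self WithZero.exp_ne_zero
    have e : dg142 v t 1 ht one_ne_zero
        = dg142 v (π ^ d) 1 hpd one_ne_zero * dg142 v (t / π ^ d) 1 hu one_ne_zero := by
      rw [dg142_mul]
      exact dg142_congr _ _ _ _ (by field_simp) (by rw [mul_one])
    rw [e, hR _ _ (isMaxCpt_dg142 hu one_ne_zero hvu (by simp))]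
    exact sph_diag142 hπ Φ A b hR hL hT hS h0 d
  -- Cartan decomposition
  obtain ⟨k₁, k₂, x₁, y₁, hx₁, hy₁, hk₁, hk₂, hxy, rfl⟩ :=
    cartan129 (v.adicCompletionIntegers K) x
  have hd : diag129 x₁ y₁ hx₁ hy₁ = dg142 v x₁ y₁ hx₁ hy₁ := rfl
  rw [hd, hR _ _ hk₂, hL _ _ hk₁, dg142_swap, hR _ _ (isMaxCpt129_weyl _),
    hL _ _ (isMaxCpt129_weyl _)]
  have hyx : y₁ / x₁ ≠ 0 := div_ne_zero hy₁ hx₁
  have e : dg142 v y₁ x₁ hy₁ hx₁
      = dg142 v (y₁ / x₁) 1 hyx one_ne_zero * dg142 v x₁ x₁ hx₁ hx₁ := by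
    rw [dg142_mul]
    exact dg142_congr _ _ _ _ (by field_simp) (by rw [one_mul])
  obtain ⟨k, hk⟩ := exists_int_val142 hx₁
  rw [e]
  exact hscal k x₁ hx₁ hk _ (hdiag _ hyx ((mem_adicCompletionIntegers _ _ _).mp hxy))

end Core

end Fermat.Agent.LT.T7.H142

end
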