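import Fermat.Agent.LT.T7.H963.Compress
import Fermat.Agent.LT.T7.H142.SphLocal
import Fermat.Agent.LT.H129.HeckeLevel

/-!
# Row LT, tower T7, node `SimpleC`, leaf `StepSphC` of the cut of helper963 (helper142)

OFF-MAIN.  `stepSphC142 K : H963.StepSphC K`, VERBATIM against `LT/T7/H963/Compress.lean`
(helper963), UNCONDITIONAL.

`Φ(x) = ⟨R(a x) f, χ⟩` for `x ∈ GL₂(K_v)` (embedded at `v`, `a` trivial at `v`) is bi-invariant
under `GL₂(𝒪_v)` (`f`, `χ` are invariant under the level group, the pairing is invariant under
right translations, `a` commutes with the elements supported at `v`), satisfies the Hecke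
relation for the standard coset system of helper129 and `Φ(x ϖ) = b_v Φ(x)`.  The local core
`sph_vanish142` (`SphLocal.lean`: Cartan decomposition + recursion) gives `Φ = 0` from `Φ(1) = 0`.
-/

set_option autoImplicit false
set_option linter.unusedSectionVars false
set_option linter.unusedVariables false

open IsDedekindDomain NumberField MeasureTheory AutomorphicForm
open Fermat.Agent.LT.H556.A0

noncomputable section

namespace Fermat.Agent.LT.T7.H142

open Fermat.Agent.LT.T2.H941 Fermat.Agent.LT.H129 Fermat.Agent.LT.T7.H963 Fermat.Agent.LT.T7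

variable {K : Type} [Field K] [NumberField K]

attribute [local instance] Fermat.Agent.LT.T2.borelG

/-- An element which is trivial at `v` commutes with the elements supported at `v`. -/
theorem commute_locFin142 {v : HeightOneSpectrum (𝓞 K)} {a : G K} (ha : TrivAtFin v a)
    (x : GL (Fin 2) (v.adicCompletion K)) : a * locFin129 v x = locFin129 v x * a := by
  apply G_ext129
  · intro w
    rw [map_mul, map_mul, infCompHom129_locFin129, mul_one, one_mul]
  · intro v'
    by_cases h : v' = v
    · subst h
      rw [map_mul, map_mul, (trivAtFin_iff129 _ a).1 ha, one_mul, mul_one]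
    · rw [map_mul, map_mul, finCompHom129_locFin129_of_ne v x h, mul_one, one_mul]

theorem finite_residue142 (v : HeightOneSpectrum (𝓞 K)) : Finite (𝓞 K ⧸ v.asIdeal) := by
  apply Nat.finite_of_card_ne_zero
  rw [← Submodule.cardQuot_apply, ← Ideal.absNorm_apply]
  exact ne_of_gt (lt_trans Nat.zero_lt_one (NumberField.HeightOneSpectrum.one_lt_absNorm v))

open Classical in
/-- The standard Hecke coset system of helper129, as an explicit finset. -/
theorem isHeckeCosetSystem_std142 (v : HeightOneSpectrum (𝓞 K)) [Fintype (𝓞 K ⧸ v.asIdeal)]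
    {π : v.adicCompletion K} (hπ : Valued.v π = WithZero.exp (-1 : ℤ)) :
    Function.Injective (stdHecke129 v π (unif_ne_zero129 v hπ)) ∧
      IsHeckeCosetSystem v (Finset.univ.image (stdHecke129 v π (unif_ne_zero129 v hπ))) := by
  have hinj : Function.Injective (stdHecke129 v π (unif_ne_zero129 v hπ)) := by
    intro a b hab
    by_contra hne
    apply stdHecke129_not_int v hπ hne
    rw [hab, inv_mul_cancel]
    intro i j
    have : finComp v (1 : G K) = 1 := by
      rw [← coe_finCompHom129, map_one]; rfl
    rw [this]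
    by_cases hij : i = j
    · subst hij; simpa using (v.adicCompletionIntegers K).one_mem
    · simpa [hij] using (v.adicCompletionIntegers K).zero_mem
  refine ⟨hinj, ?_, ?_, ?_⟩
  · rw [Finset.card_image_of_injective _ hinj, Finset.card_univ, Fintype.card_option,
      Ideal.absNorm_apply, Submodule.cardQuot_apply, Nat.card_eq_fintype_card]
  · intro h hh
    obtain ⟨a, -, rfl⟩ := Finset.mem_image.mp hh
    exact stdHecke129_props v hπ a
  · intro h hh h' hh' hne
    obtain ⟨a, -, rfl⟩ := Finset.mem_image.mp hh
    obtain ⟨b, -, rfl⟩ := Finset.mem_image.mp hh'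
    exact stdHecke129_not_int v hπ (fun e => hne (by rw [e]))

variable (K)

/-- **LEAF `StepSphC`** (the spherical function at an unramified place). -/
theorem stepSphC142 : StepSphC K := by
  classical
  intro hcx F 𝔫 r l o C h𝔫 hr ho hC v hv a h hav hh f χ hf hχ h0
  obtain ⟨π, hπ⟩ := exists_unif129 v
  have hπ0 := unif_ne_zero129 v hπ
  haveI : Finite (𝓞 K ⧸ v.asIdeal) := finite_residue142 v
  letI : Fintype (𝓞 K ⧸ v.asIdeal) := Fintype.ofFinite _
  obtain ⟨hadd, -, hinv⟩ := pair_uncond K F
  have hfA : IsAut0 f := isAut0_of_isEigFn hcx h𝔫 hC hf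
  have hχA : IsAut0 χ := isAut0_of_isEigFn hcx h𝔫 hC hχ
  have hflev : ∀ u : G K, InLevelGroup 𝔫 u → ∀ g : G K, f (g * u) = f g :=
    hf.inv.cusp.aut.level_inv
  have hχlev : ∀ u : G K, InLevelGroup 𝔫 u → ∀ g : G K, χ (g * u) = χ g :=
    hχ.inv.cusp.aut.level_inv
  -- `GL₂(𝒪_v)` lies in the level group
  have hK : ∀ k : GL (Fin 2) (v.adicCompletion K),
      IsMaxCpt129 (v.adicCompletionIntegers K) k → InLevelGroup 𝔫 (locFin129 v k) := by
    intro k hk
    apply inLevelGroup_of_localMaxCpt129 hv
    refine ⟨isLocalAtFin_locFin129 v k, ?_, ?_⟩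
    · rw [← isInt129_finCompHom_iff, finCompHom129_locFin129]
      exact hk.1
    · rw [← map_inv, ← isInt129_finCompHom_iff, finCompHom129_locFin129]
      exact hk.2
  set Φ : GL (Fin 2) (v.adicCompletion K) → ℂ :=
    fun x => T2.pair F (rt (a * locFin129 v x) f) χ with hΦ
  have hR : ∀ x k, IsMaxCpt129 (v.adicCompletionIntegers K) k → Φ (x * k) = Φ x := by
    intro x k hk
    have e : rt (a * locFin129 v (x * k)) f = rt (a * locFin129 v x) f := by
      funext y
      simp only [rt, map_mul]
      have h1 := hflev _ (hK k hk) (y * (a * locFin129 v x))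
      rw [← h1]
      congr 1
      group
    simp only [hΦ, e]
  have hL : ∀ x k, IsMaxCpt129 (v.adicCompletionIntegers K) k → Φ (k * x) = Φ x := by
    intro x k hk
    have e : a * locFin129 v (k * x) = locFin129 v k * (a * locFin129 v x) := by
      rw [map_mul, ← mul_assoc, commute_locFin142 hav k, mul_assoc]
    have hχ' : rt (locFin129 v k) χ = χ := by
      funext y
      exact hχlev _ (hK k hk) y
    have h1 := hinv (locFin129 v k) (rt (a * locFin129 v x) f) χ (isAut0_rt _ hfA) hχA
    rw [hχ', rt_rt] at h1
    simp only [hΦ, e]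
    exact h1
  obtain ⟨hinj, hH⟩ := isHeckeCosetSystem_std142 v hπ
  set A : ℂ := ((Real.sqrt (Ideal.absNorm v.asIdeal : ℝ) : ℝ) : ℂ) * C.a v with hA
  have hT : ∀ x, (∑ c : 𝓞 K ⧸ v.asIdeal, Φ (x * up142 v π (rep129 v c) hπ0))
      + Φ (x * dg142 v 1 π one_ne_zero hπ0) = A * Φ x := by
    intro x
    have hfun : (fun y => A * rt (a * locFin129 v x) f y)
        = fun y => ∑ o ∈ (Finset.univ : Finset (Option (𝓞 K ⧸ v.asIdeal))),
            (1 : ℂ) * rt (a * locFin129 v x * stdHecke129 v π hπ0 o) f y := by
      funext y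
      simp only [rt, one_mul]
      have h1 := (hf.hecke v hv).1 _ hH (y * (a * locFin129 v x))
      rw [Finset.sum_image (fun o _ o' _ h => hinj h)] at h1
      rw [← h1]
      refine Finset.sum_congr rfl fun o _ => ?_
      rw [mul_assoc]
    have h2 : A * Φ x = T2.pair F (fun y => A * rt (a * locFin129 v x) f y) χ :=
      (pair_smul_left F A _ χ).symm
    rw [h2, hfun, pair_sum_left F hadd Finset.univ (fun _ => 1) _ (fun o => isAut0_rt _ hfA)
      χ hχA]
    simp only [one_mul]
    rw [Fintype.sum_option, add_comm]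
    congr 1
    · simp only [hΦ, map_mul, mul_assoc]
      rfl
    · refine Finset.sum_congr rfl fun c _ => ?_
      simp only [hΦ, map_mul, mul_assoc]
      rfl
  have hS : ∀ x, Φ (x * dg142 v π π hπ0 hπ0) = C.b v * Φ x := by
    intro x
    have hz : IsScalarUniformizerAt v (locFin129 v (dg142 v π π hπ0 hπ0)) := by
      refine ⟨isLocalAtFin_locFin129 v _, π, hπ, ?_⟩
      rw [finComp_locFin129, coe_dg142]
      ext i j
      fin_cases i <;> fin_cases j <;> simp
    have e : rt (a * locFin129 v (x * dg142 v π π hπ0 hπ0)) f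
        = fun y => C.b v * rt (a * locFin129 v x) f y := by
      funext y
      simp only [rt, map_mul]
      have h1 := (hf.hecke v hv).2 _ hz (y * (a * locFin129 v x))
      rw [← h1]
      congr 1
      group
    simp only [hΦ, e]
    exact pair_smul_left F (C.b v) _ χ
  have h1 : Φ 1 = 0 := by
    simp only [hΦ, map_one, mul_one]
    exact h0
  have key := sph_vanish142 hπ Φ A (C.b v) hR hL hT hS h1 (finCompHom129 v h)
  simp only [hΦ] at key
  rw [← eq_locFin129_of_isLocalAtFin hh] at key
  exact key

end Fermat.Agent.LT.T7.H142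

end
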